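import Mathlib.Tactic
import Fermat.Prelude.Thm_ModularForm_sturm_bound_Gamma0

/-!
# Weight 2 cusp forms of very small level vanish

`cuspForm_two_eq_zero_of_le_two` (S07, S08): Sturm's bound shows that a weight-`2` cusp form on
`Γ₀(N)`, `N ≤ 2`, is zero, as the index of `Γ₀(N)` is at most `N ^ 2 ≤ 4 < 6`.
-/

set_option autoImplicit false

open CongruenceSubgroup UpperHalfPlane
open scoped MatrixGroups

namespace Fermat.Agent.Patching

/-- Crude bound on the index of `Γ₀(N)`: cosets are determined by the first column mod `N`. -/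
lemma index_gamma0_le_sq (N : ℕ) [NeZero N] : (Gamma0 N).index ≤ N * N := by
  classical
  have hinj : Function.Injective
      (fun q : SL(2, ℤ) ⧸ Gamma0 N => (((q.out 0 0 : ℤ) : ZMod N),
          ((q.out 1 0 : ℤ) : ZMod N))) := by
    intro q r h
    simp only [Prod.mk.injEq] at h
    rw [← q.out_eq', ← r.out_eq', QuotientGroup.eq, Gamma0_mem]
    simp [Matrix.SpecialLinearGroup.coe_mul, Matrix.mul_apply, Fin.sum_univ_two,
      Matrix.SpecialLinearGroup.SL2_inv_expl, h.1, h.2]
    ring
  have := Nat.card_le_card_of_injective _ hinj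
  simpa [Subgroup.index, Nat.card_prod] using this

/-- Weight-`2` cusp forms on `Γ₀(N)` vanish for `N ≤ 2`. -/
lemma cuspForm_two_eq_zero_of_le_two (N : ℕ) [NeZero N] (hN : N ≤ 2)
    (f : CuspForm (Gamma0 N) 2) : f = 0 := by
  let g : ModularForm (Gamma0 N) 2 :=
    { toFun := f
      slash_action_eq' := f.slash_action_eq'
      holo' := f.holo'
      bdd_at_cusps' := fun hc γ hγ => (f.zero_at_cusps' hc γ hγ).boundedAtFilter }
  have hidx : (Gamma0 N).index ≤ 4 :=
    (index_gamma0_le_sq N).trans (by nlinarith)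
  have hg : g = 0 := by
    refine ModularForm.sturm_bound_Gamma0 N g fun n hn => ?_
    have h0 : ((2 : ℤ) * (Gamma0 N).index).toNat / 12 = 0 := by omega
    have hn0 : n = 0 := by omega
    subst hn0
    exact CuspFormClass.qExpansion_coeff_zero f one_pos (by simp)
  ext z
  exact congrArg (fun F : ModularForm (Gamma0 N) 2 => F z) hg

end Fermat.Agent.Patching
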