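import Fermat.Prelude.Def_Algebra_PatchingDatum
import Fermat.Agent.Patching.FreeOfDepth
import Fermat.Agent.Patching.PowerSeriesRegular

/-!
# The descent step of patching

`free_faithful_ker`: if a patching level has no relations left (`J = ⊥`) and `M ≠ 0`, then `M` is
free and faithful over `R` and the kernel of `ψ` is generated by the images of the variables. It is
the statement of `S57`. With `P = 𝒪⟦X₁, …, X_r⟧`, acting on the module `N` of the level:

1. Through `φ` the module `N` is free of rank `d`, so the images of `X₁, …, X_r, ϖ` form a weakly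
   regular sequence on `N` (`isWeaklyRegular_map_phi`, with `Patching/PowerSeriesRegular`).
2. These images lie in the maximal ideal and leave a quotient of finite length
   (`map_phi_mem_maximalIdeal`, `isFiniteLength_quotient`).
3. So `N` has maximal depth over the regular local ring `P` and is free over it (`free_N`, with
   `Patching/FreeOfDepth`).
4. A basis of `N` maps to one of `M`, as the kernel of `π` is the ideal generated by the images of
   the variables times `N` and `ψ` kills this ideal; the same computation gives the kernel of `ψ`.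

## References

* R. Taylor, A. Wiles, *Ring-theoretic properties of certain Hecke algebras*, Ann. of Math. (1995).
* F. Diamond, *The Taylor-Wiles construction and multiplicity one*, Invent. Math. (1997).

Only the commutative algebra of the last step is here, in Diamond's form with a module.
-/

set_option autoImplicit false

open MvPowerSeries RingTheory.Sequence IsLocalRing

namespace Fermat.Agent.Patching

variable {𝒪 : Type} [CommRing 𝒪] [IsDomain 𝒪] [IsDiscreteValuationRing 𝒪] {r : ℕ} {R : Type}
  [CommRing R] [Algebra 𝒪 R] {M : Type} [AddCommGroup M] [Module R M]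
  (L : Algebra.PatchingLevel 𝒪 r R M ⊥)

/-! ## `N` as a module through `φ` -/

/-- `N` as a free module over the power series ring acting through `φ`. -/
noncomputable def phiEquiv : (Fin L.d → MvPowerSeries (Fin r) 𝒪) ≃+ L.N :=
  AddEquiv.ofBijective
    (AddMonoidHom.mk' (fun c => ∑ i, L.φ (c i) • L.b i)
      fun c c' => by simp [add_smul, Finset.sum_add_distrib])
    ⟨(injective_iff_map_eq_zero _).2 fun c hc => funext fun i => by
        simpa using (L.b_rel c).1 hc i,
      fun x => let ⟨c, hc⟩ := L.b_span x; ⟨c, hc.symm⟩⟩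

omit [IsDomain 𝒪] [IsDiscreteValuationRing 𝒪] in
/-- `phiEquiv` turns the scalars `f` into `φ f`. -/
lemma phiEquiv_smul (f : MvPowerSeries (Fin r) 𝒪) (c : Fin L.d → MvPowerSeries (Fin r) 𝒪) :
    phiEquiv L (f • c) = L.φ f • phiEquiv L c := by
  simp [phiEquiv, Finset.smul_sum, mul_smul]

omit [IsDiscreteValuationRing 𝒪] in
/-- The images of the parameters form a weakly regular sequence on `N`. -/
lemma isWeaklyRegular_map_phi {ϖ : 𝒪} (hϖ : ϖ ≠ 0) :
    IsWeaklyRegular L.N ((paramSeq r ϖ).map L.φ) := by
  have h := isWeaklyRegular_paramSeq r (ϖ := ϖ) (IsRegular.of_ne_zero hϖ).left.isSMulRegular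
  have h2 := h.isWeaklyRegular_rTensor (M₂ := Fin L.d → MvPowerSeries (Fin r) 𝒪)
  rw [(TensorProduct.lid (MvPowerSeries (Fin r) 𝒪) _).isWeaklyRegular_congr] at h2
  refine ((phiEquiv L).isWeaklyRegular_congr ?_).1 h2
  exact List.forall₂_map_right_iff.2 (List.forall₂_same.2 fun f _ c => phiEquiv_smul L f c)

/-! ## `N` is free over the power series ring -/

/-- The images of the variables are not units, as `ψ` kills them. -/
lemma phi_X_mem_maximalIdeal [Nontrivial M] (i : Fin r) :
    L.φ (X i) ∈ maximalIdeal (MvPowerSeries (Fin r) 𝒪) := by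
  rw [mem_maximalIdeal, mem_nonunits_iff]
  intro h
  have : Nontrivial R := Module.nontrivial R M
  exact not_isUnit_zero (L.ψ_φ_X i ▸ h.map L.ψ)

omit [IsDomain 𝒪] [IsDiscreteValuationRing 𝒪] in
/-- `φ` fixes the constants. -/
lemma phi_C (a : 𝒪) : L.φ (C a) = C a := L.φ.commutes a

/-- The images of the parameters lie in the maximal ideal. -/
lemma map_phi_mem_maximalIdeal [Nontrivial M] {ϖ : 𝒪} (hϖ : Irreducible ϖ)
    {x : MvPowerSeries (Fin r) 𝒪} (hx : x ∈ (paramSeq r ϖ).map L.φ) :
    x ∈ maximalIdeal (MvPowerSeries (Fin r) 𝒪) := by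
  obtain ⟨y, hy, rfl⟩ := List.mem_map.1 hx
  rw [paramSeq, List.mem_append, List.mem_ofFn] at hy
  rcases hy with ⟨j, rfl⟩ | hy
  · exact phi_X_mem_maximalIdeal L j
  · rw [List.mem_singleton] at hy
    subst hy
    rw [phi_C, mem_maximalIdeal, mem_nonunits_iff, isUnit_iff_constantCoeff, constantCoeff_C]
    exact hϖ.not_isUnit

omit [IsDomain 𝒪] [IsDiscreteValuationRing 𝒪] in
/-- `N` is finite over the power series ring. -/
lemma finite_N : Module.Finite (MvPowerSeries (Fin r) 𝒪) L.N := by
  refine ⟨⟨(Set.finite_range L.b).toFinset, ?_⟩⟩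
  rw [Set.Finite.coe_toFinset, eq_top_iff]
  intro x _
  obtain ⟨c, rfl⟩ := L.b_span x
  exact Submodule.sum_mem _ fun i _ => Submodule.smul_mem _ _
    (Submodule.subset_span (Set.mem_range_self i))

/-- Modulo the images of the parameters `N` has finite length. -/
lemma isFiniteLength_quotient {ϖ : 𝒪} (hϖ : Irreducible ϖ) :
    IsFiniteLength (MvPowerSeries (Fin r) 𝒪)
      (L.N ⧸ Ideal.ofList ((paramSeq r ϖ).map L.φ) •
        (⊤ : Submodule (MvPowerSeries (Fin r) 𝒪) L.N)) := by
  let P := MvPowerSeries (Fin r) 𝒪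
  let Q : Ideal P := Ideal.ofList ((paramSeq r ϖ).map L.φ)
  let S : Submodule P L.N := Q • ⊤
  let _ : Module 𝒪 L.N := Module.compHom L.N (algebraMap 𝒪 P)
  have : IsScalarTower 𝒪 P L.N := ⟨fun a f x => by
    change (a • f) • x = algebraMap 𝒪 P a • f • x
    rw [Algebra.smul_def, mul_smul]⟩
  have hQ : ∀ f : P, f ∈ Ideal.ofList (paramSeq r ϖ) → L.φ f ∈ Q := fun f hf => by
    show L.φ f ∈ Ideal.ofList ((paramSeq r ϖ).map L.φ.toRingHom)
    rw [← Ideal.map_ofList]
    exact Ideal.mem_map_of_mem _ hf
  have hsmul : ∀ (f : P), f ∈ Q → ∀ x : L.N, S.mkQ (f • x) = 0 := fun f hf x =>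
    (Submodule.Quotient.mk_eq_zero S).2 (Submodule.smul_mem_smul hf Submodule.mem_top)
  -- `ϖ` and the variables act as zero on the quotient, so it is spanned over the residue field by
  -- the images of the generators `L.b`.
  let g : (Fin L.d → 𝒪 ⧸ maximalIdeal 𝒪) →ₗ[𝒪] L.N ⧸ S :=
    LinearMap.lsum 𝒪 (fun _ => 𝒪 ⧸ maximalIdeal 𝒪) 𝒪 fun i =>
      Submodule.liftQ (maximalIdeal 𝒪) (LinearMap.toSpanSingleton 𝒪 _ (S.mkQ (L.b i))) <| by
        intro a ha
        rw [hϖ.maximalIdeal_eq, Ideal.mem_span_singleton] at ha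
        obtain ⟨a, rfl⟩ := ha
        rw [LinearMap.mem_ker, LinearMap.toSpanSingleton_apply, mul_smul,
          ← LinearMap.map_smul_of_tower, ← IsScalarTower.algebraMap_smul P ϖ, ← map_smul]
        refine hsmul _ ?_ _
        have := hQ (C ϖ) (Ideal.subset_span (by simp [paramSeq]))
        rwa [phi_C] at this
  have hg : Function.Surjective g := by
    intro y
    obtain ⟨x, rfl⟩ := S.mkQ_surjective y
    obtain ⟨c, rfl⟩ := L.b_span x
    refine ⟨fun i => Submodule.Quotient.mk (constantCoeff (c i)), ?_⟩
    simp only [g, LinearMap.lsum_apply, LinearMap.sum_apply, LinearMap.comp_apply,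
      LinearMap.proj_apply, Submodule.liftQ_apply, LinearMap.toSpanSingleton_apply, map_sum]
    refine Finset.sum_congr rfl fun i _ => ?_
    rw [← IsScalarTower.algebraMap_smul P (constantCoeff (c i)), ← map_smul, eq_comm,
      ← sub_eq_zero, ← map_sub, ← sub_smul]
    refine hsmul _ ?_ _
    have := hQ (c i - C (constantCoeff (c i))) <| by
      rw [paramSeq, Ideal.ofList_append, ofList_ofFn_X]
      exact Ideal.mem_sup_left (sub_C_mem_span_range_X (c i))
    rwa [map_sub, phi_C] at this
  have : IsSimpleModule 𝒪 (𝒪 ⧸ maximalIdeal 𝒪) :=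
    isSimpleModule_iff_quot_maximal.2 ⟨_, maximalIdeal.isMaximal 𝒪, ⟨LinearEquiv.refl _ _⟩⟩
  have : IsArtinian 𝒪 (L.N ⧸ S) := isArtinian_of_surjective _ g hg
  have hfin := finite_N L
  exact isFiniteLength_iff_isNoetherian_isArtinian.2 ⟨inferInstance,
    isArtinian_of_tower 𝒪 ‹IsArtinian 𝒪 (L.N ⧸ S)›⟩

/-- `N` is free, being of maximal depth over a regular local ring. -/
lemma free_N [Nontrivial M] : Module.Free (MvPowerSeries (Fin r) 𝒪) L.N := by
  obtain ⟨ϖ, hϖ⟩ := IsDiscreteValuationRing.exists_irreducible 𝒪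
  have := finite_N L
  have : Nontrivial L.N := L.π_surjective.nontrivial
  exact free_of_isWeaklyRegular (paramSeq r ϖ)
    (isWeaklyRegular_paramSeq r (IsRegular.of_ne_zero hϖ.ne_zero).left.isSMulRegular)
    (ofList_paramSeq r hϖ) L.N _ (List.length_map _) (isWeaklyRegular_map_phi L hϖ.ne_zero)
    (fun x hx => map_phi_mem_maximalIdeal L hϖ hx) (isFiniteLength_quotient L hϖ)

/-! ## Descent to `M` -/

/-- The ideal generated by the images of the variables. -/
noncomputable def patchIdeal : Ideal (MvPowerSeries (Fin r) 𝒪) :=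
  Ideal.span (Set.range fun i : Fin r => L.φ (X i))

omit [IsDomain 𝒪] [IsDiscreteValuationRing 𝒪] in
/-- `ψ` kills the images of the variables. -/
lemma psi_eq_zero_of_mem {f : MvPowerSeries (Fin r) 𝒪} (hf : f ∈ patchIdeal L) : L.ψ f = 0 := by
  have h : patchIdeal L ≤ RingHom.ker L.ψ := by
    rw [patchIdeal, Ideal.span_le]
    rintro _ ⟨i, rfl⟩
    exact L.ψ_φ_X i
  exact h hf

/-- The descent step: a patching level with trivial relations makes `M` free and faithful over `R`,
and the kernel of `ψ` is generated by the images of the variables. -/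
theorem free_faithful_ker [Nontrivial M] :
    Module.Free R M ∧ Module.annihilator R M = ⊥ ∧ RingHom.ker L.ψ = patchIdeal L := by
  -- Steps 1-3: a basis `B` of `N`.
  have hfree := free_N L
  let B := Module.Free.chooseBasis (MvPowerSeries (Fin r) 𝒪) L.N
  let ι := Module.Free.ChooseBasisIndex (MvPowerSeries (Fin r) 𝒪) L.N
  have hπ : ∀ {κ : Type} (s : Finset κ) (f : κ → MvPowerSeries (Fin r) 𝒪) (x : κ → L.N),
      L.π (∑ k ∈ s, f k • x k) = ∑ k ∈ s, L.ψ (f k) • L.π (x k) := fun s f x => by
    simp [map_sum, L.π_smul]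
  have hcoord : ∀ x : L.N, L.π x = 0 → ∀ i, B.repr x i ∈ patchIdeal L := fun x hx i => by
    have hx' := (L.ker_π x).1 hx
    exact Submodule.smul_induction_on hx'
      (fun a ha y _ => by
        rw [map_smul, Finsupp.smul_apply, smul_eq_mul]
        exact Ideal.mul_mem_right _ _ ha)
      (fun y z hy hz => by
        rw [map_add, Finsupp.add_apply]
        exact add_mem hy hz)
  -- Step 4: `B` maps to a basis of `M`, as the coordinates of the kernel lie in the ideal killed
  -- by `ψ`.
  have hli : LinearIndependent R (fun i => L.π (B i)) := by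
    rw [linearIndependent_iff']
    intro s c hc i hi
    choose f hf using fun j => L.ψ_surjective (c j)
    have h0 : L.π (∑ j ∈ s, f j • B j) = 0 := by simpa [hπ, hf] using hc
    have hmem := hcoord _ h0 i
    rw [map_sum, Finsupp.finsetSum_apply] at hmem
    simp only [map_smul, Module.Basis.repr_self, Finsupp.smul_single, smul_eq_mul, mul_one]
      at hmem
    rw [Finset.sum_eq_single i (fun j _ hj => Finsupp.single_eq_of_ne' hj)
      (fun h => absurd hi h), Finsupp.single_eq_same] at hmem
    rw [← hf i]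
    exact psi_eq_zero_of_mem L hmem
  have hsp : ⊤ ≤ Submodule.span R (Set.range fun i => L.π (B i)) := by
    rintro y -
    obtain ⟨x, rfl⟩ := L.π_surjective y
    rw [← B.linearCombination_repr x, Finsupp.linearCombination_apply, Finsupp.sum, hπ]
    exact Submodule.sum_mem _ fun i _ => Submodule.smul_mem _ _
      (Submodule.subset_span (Set.mem_range_self i))
  let BM := Module.Basis.mk hli hsp
  have : Module.Free R M := Module.Free.of_basis BM
  refine ⟨this, Module.annihilator_eq_bot.2 inferInstance, ?_⟩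
  refine le_antisymm (fun f hf => ?_) fun f hf => psi_eq_zero_of_mem L hf
  -- If `ψ f = 0` then `π` kills `f B i`, whose coordinate is `f`.
  rw [RingHom.mem_ker] at hf
  obtain ⟨i⟩ : Nonempty ι := BM.index_nonempty
  have h0 : L.π (f • B i) = 0 := by rw [L.π_smul, hf, zero_smul]
  simpa using hcoord _ h0 i

end Fermat.Agent.Patching
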